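/-
The hyperbolic area of the standard fundamental domain `𝒟` of `SL(2, ℤ)` is finite, `𝒟` is
measurable, and the invariant measure of the upper half-plane has full support.

Mathlib only.  (Leaf of the Petersson reducedness track.)
-/
import Mathlib

set_option autoImplicit false

namespace Fermat.Agent.Lib.FdVolume

open MeasureTheory UpperHalfPlane Set
open scoped Modular ENNReal NNReal

/-- The standard fundamental domain is closed in `ℍ`. -/
theorem isClosed_fd : IsClosed (ModularGroup.fd : Set ℍ) := by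
  have h1 : IsClosed {z : ℍ | 1 ≤ Complex.normSq (z : ℂ)} :=
    isClosed_le continuous_const (Complex.continuous_normSq.comp continuous_coe)
  have h2 : IsClosed {z : ℍ | |z.re| ≤ (1 : ℝ) / 2} :=
    isClosed_le (continuous_abs.comp UpperHalfPlane.continuous_re) continuous_const
  exact h1.inter h2

/-- The standard fundamental domain is measurable. -/
theorem measurableSet_fd : MeasurableSet (ModularGroup.fd : Set ℍ) :=
  isClosed_fd.measurableSet

/-- The strip `|x| ≤ 1/2`, `1/2 < y`. -/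
def strip : Set ℂ := Complex.measurableEquivRealProd ⁻¹' (Icc (-(1 / 2 : ℝ)) (1 / 2) ×ˢ Ioi (1 / 2 : ℝ))

theorem coe_fd_subset_strip : (UpperHalfPlane.coe '' (ModularGroup.fd : Set ℍ)) ⊆ strip := by
  rintro _ ⟨z, hz, rfl⟩
  obtain ⟨h1, h2⟩ := hz
  have him : 0 < z.im := z.im_pos
  have hns : Complex.normSq (z : ℂ) = z.re ^ 2 + z.im ^ 2 := by
    rw [Complex.normSq_apply]; simp [UpperHalfPlane.coe_re, UpperHalfPlane.coe_im]; ring
  rw [hns] at h1
  have habs := abs_le.mp h2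
  simp only [strip, mem_preimage, Complex.measurableEquivRealProd_apply, mem_prod, mem_Icc, mem_Ioi]
  refine ⟨⟨?_, ?_⟩, ?_⟩
  · simpa using habs.1
  · simpa using habs.2
  · have : (z : ℂ).im = z.im := rfl
    rw [this]
    nlinarith [sq_nonneg (z.re), sq_nonneg (z.im - 1 / 2)]

/-- The density `1 / y ^ 2` on the half-line `y > 1/2` has finite integral. -/
theorem lintegral_Ioi_lt_top :
    ∫⁻ y in Ioi (1 / 2 : ℝ), (((1 / ‖y‖₊) ^ 2 : ℝ≥0) : ℝ≥0∞) < ⊤ := by
  have hint : IntegrableOn (fun t : ℝ => t ^ (-2 : ℝ)) (Ioi (1 / 2 : ℝ)) :=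
    integrableOn_Ioi_rpow_of_lt (by norm_num) (by norm_num)
  have h2 : ∫⁻ y in Ioi (1 / 2 : ℝ), ENNReal.ofReal (y ^ (-2 : ℝ)) < ⊤ :=
    hint.setLIntegral_lt_top
  refine lt_of_le_of_lt (le_of_eq ?_) h2
  refine setLIntegral_congr_fun measurableSet_Ioi ?_
  intro y hy
  have hy0 : (0 : ℝ) < y := lt_trans (by norm_num) hy
  change (_ : ℝ≥0∞) = (((y ^ (-2 : ℝ)).toNNReal : ℝ≥0) : ℝ≥0∞)
  rw [ENNReal.coe_inj]
  ext
  rw [Real.coe_toNNReal _ (by positivity)]
  push_cast
  rw [Real.norm_of_nonneg hy0.le, Real.rpow_neg hy0.le, one_div, inv_pow]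
  norm_num

/-- The hyperbolic area of the standard fundamental domain is finite. -/
theorem volume_fd_lt_top : volume (ModularGroup.fd : Set ℍ) < ⊤ := by
  rw [UpperHalfPlane.volume_eq_lintegral]
  refine lt_of_le_of_lt (lintegral_mono_set coe_fd_subset_strip) ?_
  have key := Complex.volume_preserving_equiv_real_prod.setLIntegral_comp_preimage_emb
    Complex.measurableEquivRealProd.measurableEmbedding
    (fun p : ℝ × ℝ => (((1 / ‖p.2‖₊) ^ 2 : ℝ≥0) : ℝ≥0∞))
    (Icc (-(1 / 2 : ℝ)) (1 / 2) ×ˢ Ioi (1 / 2 : ℝ))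
  have hL : ∫⁻ z in strip, (((1 / ‖z.im‖₊) ^ 2 : ℝ≥0) : ℝ≥0∞) =
      ∫⁻ p in Icc (-(1 / 2 : ℝ)) (1 / 2) ×ˢ Ioi (1 / 2 : ℝ),
        (((1 / ‖p.2‖₊) ^ 2 : ℝ≥0) : ℝ≥0∞) := by
    rw [← key]; rfl
  rw [hL, Measure.volume_eq_prod, setLIntegral_prod]
  · change ∫⁻ (_ : ℝ) in Icc (-(1 / 2 : ℝ)) (1 / 2),
      (∫⁻ (y : ℝ) in Ioi (1 / 2 : ℝ), (((1 / ‖y‖₊) ^ 2 : ℝ≥0) : ℝ≥0∞)) < ⊤
    rw [setLIntegral_const]
    refine ENNReal.mul_lt_top lintegral_Ioi_lt_top ?_
    rw [Real.volume_Icc]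
    exact ENNReal.ofReal_lt_top
  · apply Measurable.aemeasurable
    fun_prop

/-- Nonempty open subsets of `ℍ` have positive invariant measure. -/
theorem volume_pos_of_isOpen {U : Set ℍ} (hU : IsOpen U) (hne : U.Nonempty) :
    0 < volume U := by
  rw [pos_iff_ne_zero]
  intro h0
  rw [UpperHalfPlane.volume_eq_lintegral] at h0
  have hopen : IsOpen (UpperHalfPlane.coe '' U) :=
    UpperHalfPlane.isOpenEmbedding_coe.isOpenMap U hU
  have hpos : 0 < volume (UpperHalfPlane.coe '' U) :=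
    hopen.measure_pos volume (hne.image _)
  rw [lintegral_eq_zero_iff' (by fun_prop)] at h0
  rw [Filter.EventuallyEq, ae_restrict_iff' hopen.measurableSet] at h0
  have hz : volume (UpperHalfPlane.coe '' U) = 0 := by
    refine measure_mono_null ?_ h0
    rintro _ ⟨z, hz, rfl⟩
    simp only [mem_compl_iff, Set.mem_ofPred_eq, Classical.not_imp]
    refine ⟨⟨z, hz, rfl⟩, ?_⟩
    simp only [Pi.zero_apply, ENNReal.coe_eq_zero]
    have : (z : ℂ).im ≠ 0 := z.im_ne_zero
    exact pow_ne_zero _ (one_div_ne_zero (nnnorm_ne_zero_iff.mpr this))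
  exact hpos.ne' hz

/-- The invariant measure of the upper half-plane has full support. -/
instance instIsOpenPosMeasure : (volume : Measure ℍ).IsOpenPosMeasure :=
  ⟨fun _ hU hne => (volume_pos_of_isOpen hU hne).ne'⟩

end Fermat.Agent.Lib.FdVolume
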