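/-
The weight of `SL(2, ℤ)` acting on the upper half-plane, and of its subgroups of finite index.

`fdWeight = 1_𝒟 / m`, where `𝒟` is the standard closed fundamental domain and `m τ` the (finite)
number of `h ∈ SL(2, ℤ)` with `h • τ ∈ 𝒟`; its `SL(2, ℤ)`-translates sum to `1` at EVERY point, so
no null set and no quotient by `±1` is ever needed.  The hyperbolic area of `𝒟` is finite and
non-empty open sets have positive area.
-/
import Mathlib
import Fermat.Agent.Lib.Petersson.Weight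

set_option autoImplicit false

namespace Fermat.Agent.Lib.Petersson

open MeasureTheory UpperHalfPlane Matrix.SpecialLinearGroup
open scoped ENNReal MatrixGroups Modular

instance countable_SL2Z : Countable SL(2, ℤ) := by
  refine Function.Injective.countable
    (f := fun A : SL(2, ℤ) => fun i j => (A : Matrix (Fin 2) (Fin 2) ℤ) i j) ?_
  intro A B h
  ext i j
  exact congrFun (congrFun h i) j

/-! ### Area -/

/-- The hyperbolic area of the standard fundamental domain is finite. -/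
theorem volume_fd_lt_top : volume (𝒟 : Set ℍ) < ⊤ := by
  rw [volume_eq_lintegral]
  set e := Complex.measurableEquivRealProd with he
  set f : ℝ × ℝ → ℝ≥0∞ := fun p => (((1 / ‖p.2‖₊) ^ 2 : NNReal) : ℝ≥0∞) with hf
  have hfm : Measurable f :=
    measurable_coe_nnreal_ennreal.comp
      ((measurable_const.div (measurable_nnnorm.comp measurable_snd)).pow_const 2)
  have hsub : ((↑) '' (𝒟 : Set ℍ) : Set ℂ) ⊆
      e ⁻¹' (Set.Icc (-1 / 2 : ℝ) (1 / 2) ×ˢ Set.Ici (1 / 2 : ℝ)) := by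
    rintro _ ⟨τ, hτ, rfl⟩
    have h3 := ModularGroup.three_le_four_mul_im_sq_of_mem_fd hτ
    have hre : |τ.re| ≤ 1 / 2 := hτ.2
    have him : 0 < τ.im := τ.im_pos
    simp only [Set.mem_preimage, he, Complex.measurableEquivRealProd_apply, Set.mem_prod,
      Set.mem_Icc, Set.mem_Ici, coe_re, coe_im]
    refine ⟨⟨by linarith [neg_abs_le τ.re], by linarith [le_abs_self τ.re]⟩, by nlinarith⟩
  have hint : IntegrableOn (fun t : ℝ => t ^ (-2 : ℝ)) (Set.Ioi (1 / 4 : ℝ)) :=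
    integrableOn_Ioi_rpow_of_lt (by norm_num) (by norm_num)
  have hc : ∫⁻ y in Set.Ici (1 / 2 : ℝ), (((1 / ‖y‖₊) ^ 2 : NNReal) : ℝ≥0∞) < ⊤ := by
    have h1 : ∫⁻ y in Set.Ici (1 / 2 : ℝ), (((1 / ‖y‖₊) ^ 2 : NNReal) : ℝ≥0∞) =
        ∫⁻ y in Set.Ici (1 / 2 : ℝ), ‖y ^ (-2 : ℝ)‖ₑ := by
      refine setLIntegral_congr_fun measurableSet_Ici fun y hy => ?_
      have hy0 : (0 : ℝ) < y := lt_of_lt_of_le (by norm_num) (Set.mem_Ici.1 hy)
      rw [← ENNReal.ofReal_coe_nnreal, Real.enorm_of_nonneg (by positivity)]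
      congr 1
      push_cast
      rw [Real.rpow_neg hy0.le, Real.rpow_two, Real.norm_of_nonneg hy0.le]
      field_simp
    rw [h1]
    refine lt_of_le_of_lt (lintegral_mono_set fun y hy => ?_) hint.hasFiniteIntegral
    exact lt_of_lt_of_le (by norm_num) (Set.mem_Ici.1 hy)
  calc ∫⁻ z : ℂ in (↑) '' (𝒟 : Set ℍ), (((1 / ‖z.im‖₊) ^ 2 : NNReal) : ℝ≥0∞)
      ≤ ∫⁻ z : ℂ in e ⁻¹' (Set.Icc (-1 / 2 : ℝ) (1 / 2) ×ˢ Set.Ici (1 / 2 : ℝ)), f (e z) :=
        lintegral_mono_set hsub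
    _ = ∫⁻ p in Set.Icc (-1 / 2 : ℝ) (1 / 2) ×ˢ Set.Ici (1 / 2 : ℝ), f p :=
        Complex.volume_preserving_equiv_real_prod.setLIntegral_comp_preimage_emb
          e.measurableEmbedding f _
    _ < ⊤ := by
        rw [Measure.volume_eq_prod, ← Measure.prod_restrict, lintegral_prod _ hfm.aemeasurable]
        simp only [hf, lintegral_const, Measure.restrict_apply_univ, Real.volume_Icc]
        exact ENNReal.mul_lt_top hc ENNReal.ofReal_lt_top

/-- Non-empty open subsets of the upper half-plane have positive hyperbolic area. -/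
theorem volume_pos_of_isOpen {U : Set ℍ} (hU : IsOpen U) (hne : U.Nonempty) : 0 < volume U := by
  rw [volume_eq_lintegral]
  have hm : Measurable fun z : ℂ => (((1 / ‖z.im‖₊) ^ 2 : NNReal) : ℝ≥0∞) :=
    measurable_coe_nnreal_ennreal.comp
      ((measurable_const.div (measurable_nnnorm.comp Complex.measurable_im)).pow_const 2)
  rw [setLIntegral_pos_iff hm]
  have hopen : IsOpen ((↑) '' U : Set ℂ) := isOpenEmbedding_coe.isOpenMap _ hU
  refine lt_of_lt_of_le (hopen.measure_pos volume (hne.image _)) (measure_mono ?_)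
  rintro _ ⟨τ, hτ, rfl⟩
  refine ⟨?_, τ, hτ, rfl⟩
  simp [Function.mem_support, τ.im_ne_zero]

/-! ### The multiplicity function and the weight of `SL(2, ℤ)` -/

/-- The number of elements of `SL(2, ℤ)` moving `τ` into the closed fundamental domain. -/
noncomputable def fdMult (τ : ℍ) : ℝ≥0∞ :=
  ∑' h : SL(2, ℤ), (𝒟 : Set ℍ).indicator (fun _ => (1 : ℝ≥0∞)) (h • τ)

/-- The weight of `SL(2, ℤ)`. -/
noncomputable def fdWeight (τ : ℍ) : ℝ≥0∞ :=
  (𝒟 : Set ℍ).indicator (fun _ => (1 : ℝ≥0∞)) τ / fdMult τ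

theorem measurable_SL_smul (h : SL(2, ℤ)) : Measurable fun τ : ℍ => h • τ :=
  measurable_const_smul (mapGL ℝ h : GL (Fin 2) ℝ)

theorem measurable_fdIndicator :
    Measurable ((𝒟 : Set ℍ).indicator (fun _ => (1 : ℝ≥0∞))) :=
  measurable_const.indicator ModularGroup.isClosed_fd.measurableSet

theorem measurable_fdMult : Measurable fdMult :=
  Measurable.tsum fun h => measurable_fdIndicator.comp (measurable_SL_smul h)

theorem measurable_fdWeight : Measurable fdWeight :=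
  measurable_fdIndicator.div measurable_fdMult

theorem fdMult_smul (g : SL(2, ℤ)) (τ : ℍ) : fdMult (g • τ) = fdMult τ := by
  unfold fdMult
  rw [← (Equiv.mulRight g).tsum_eq
    (fun h => (𝒟 : Set ℍ).indicator (fun _ => (1 : ℝ≥0∞)) (h • τ))]
  refine tsum_congr fun h => ?_
  rw [Equiv.coe_mulRight, mul_smul]

theorem one_le_fdMult (τ : ℍ) : 1 ≤ fdMult τ := by
  obtain ⟨h, hh⟩ := ModularGroup.exists_smul_mem_fd τ
  calc (1 : ℝ≥0∞) = (𝒟 : Set ℍ).indicator (fun _ => (1 : ℝ≥0∞)) (h • τ) :=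
        (Set.indicator_of_mem hh (fun _ => (1 : ℝ≥0∞))).symm
    _ ≤ fdMult τ := ENNReal.le_tsum (f := fun h : SL(2, ℤ) =>
        (𝒟 : Set ℍ).indicator (fun _ => (1 : ℝ≥0∞)) (h • τ)) h

open ModularGroup in
theorem finite_setOf_smul_mem_fd (τ : ℍ) : {h : SL(2, ℤ) | h • τ ∈ 𝒟}.Finite := by
  obtain ⟨h₀, hh₀⟩ := ModularGroup.exists_smul_mem_fd τ
  have hE : ({g : SL(2, ℤ) | g • (h₀ • τ) ∈ 𝒟}).Finite := by
    refine Set.Finite.subset (s := ({1, -1, T, -T, T⁻¹, -T⁻¹, S, -S, T * S, -(T * S),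
      T⁻¹ * S * T⁻¹, -(T⁻¹ * S * T⁻¹), S * T⁻¹, -(S * T⁻¹), S * T, -(S * T), T * S * T,
      -(T * S * T), T⁻¹ * S, -(T⁻¹ * S)} : Set SL(2, ℤ))) (Set.toFinite _) ?_
    intro g hg
    rcases ModularGroup.cases_of_mem_fd_smul_mem_fd hh₀ hg with
      (h | h) | ⟨h | h, -⟩ | ⟨h | h, -⟩ | ⟨h | h, -⟩ | ⟨h | h, -⟩ | ⟨h | h, -⟩ | ⟨h | h, -⟩ |
        ⟨h | h, -⟩ | ⟨h | h, -⟩ | ⟨h | h, -⟩ <;>
    · subst h
      simp only [Set.mem_insert_iff, Set.mem_singleton_iff, true_or, or_true]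
  refine (hE.image (fun g => g * h₀)).subset ?_
  intro h hh
  refine ⟨h * h₀⁻¹, ?_, by simp⟩
  show (h * h₀⁻¹) • (h₀ • τ) ∈ 𝒟
  rwa [← mul_smul, inv_mul_cancel_right]

theorem fdMult_ne_top (τ : ℍ) : fdMult τ ≠ ⊤ := by
  have h1 : fdMult τ = ({h : SL(2, ℤ) | h • τ ∈ 𝒟}.encard : ℝ≥0∞) := by
    rw [← ENNReal.tsum_set_one, tsum_subtype {h : SL(2, ℤ) | h • τ ∈ 𝒟} (fun _ => (1 : ℝ≥0∞))]
    rfl
  rw [h1]
  have := Set.encard_ne_top_iff.2 (finite_setOf_smul_mem_fd τ)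
  exact_mod_cast this

theorem tsum_fdWeight (τ : ℍ) : ∑' h : SL(2, ℤ), fdWeight (h • τ) = 1 := by
  have h1 : ∀ h : SL(2, ℤ), fdWeight (h • τ) =
      (𝒟 : Set ℍ).indicator (fun _ => (1 : ℝ≥0∞)) (h • τ) * (fdMult τ)⁻¹ := fun h => by
    rw [fdWeight, fdMult_smul, div_eq_mul_inv]
  simp_rw [h1]
  rw [ENNReal.tsum_mul_right]
  exact ENNReal.mul_inv_cancel (zero_lt_one.trans_le (one_le_fdMult τ)).ne' (fdMult_ne_top τ)

theorem fdWeight_le_indicator (τ : ℍ) :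
    fdWeight τ ≤ (𝒟 : Set ℍ).indicator (fun _ => (1 : ℝ≥0∞)) τ :=
  ENNReal.div_le_of_le_mul (le_mul_of_one_le_right' (one_le_fdMult τ))

theorem isWeight_fdWeight :
    IsWeight (volume : Measure ℍ) (fun h : SL(2, ℤ) => (mapGL ℝ h : GL (Fin 2) ℝ)) fdWeight where
  measurable := measurable_fdWeight
  tsum_eq_one := tsum_fdWeight
  lintegral_ne_top := by
    refine ne_top_of_le_ne_top ?_ (lintegral_mono fdWeight_le_indicator)
    rw [lintegral_indicator ModularGroup.isClosed_fd.measurableSet]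
    simpa using volume_fd_lt_top.ne

/-! ### Subgroups of finite index -/

/-- `Λ = ⊔_q q.out · Γ`. -/
noncomputable def cosetProdEquiv {Λ : Type*} [Group Λ] (Γ : Subgroup Λ) : (Λ ⧸ Γ) × ↥Γ ≃ Λ :=
  Equiv.ofBijective (fun p => p.1.out * (p.2 : Λ)) <| by
    refine ⟨fun p p' h => ?_, fun g => ?_⟩
    · have h1 : p.1 = p'.1 := by
        have := congrArg (QuotientGroup.mk (s := Γ)) h
        rwa [QuotientGroup.mk_mul_of_mem _ p.2.2, QuotientGroup.mk_mul_of_mem _ p'.2.2,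
          QuotientGroup.out_eq', QuotientGroup.out_eq'] at this
      refine Prod.ext h1 (Subtype.ext ?_)
      simp only at h
      rw [h1] at h
      exact mul_left_cancel h
    · obtain ⟨h, hh⟩ := QuotientGroup.mk_out_eq_mul Γ g
      refine ⟨(QuotientGroup.mk g, h⁻¹), ?_⟩
      simp only
      rw [hh]
      simp

@[simp] theorem cosetProdEquiv_apply {Λ : Type*} [Group Λ] (Γ : Subgroup Λ) (q : Λ ⧸ Γ) (γ : Γ) :
    cosetProdEquiv Γ (q, γ) = q.out * (γ : Λ) := rfl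

/-- The family of transformations of `ℍ` given by a subgroup of `SL(2, ℤ)`. -/
noncomputable def phi (Γ : Subgroup SL(2, ℤ)) : ↥Γ →* GL (Fin 2) ℝ := (mapGL ℝ).comp Γ.subtype

theorem phi_apply (Γ : Subgroup SL(2, ℤ)) (γ : Γ) : phi Γ γ = mapGL ℝ (γ : SL(2, ℤ)) := rfl

theorem phi_injective (Γ : Subgroup SL(2, ℤ)) : Function.Injective (phi Γ) :=
  mapGL_injective.comp Subtype.coe_injective

/-- The weight of a subgroup of finite index of `SL(2, ℤ)`. -/
noncomputable def subWeight (Γ : Subgroup SL(2, ℤ)) [Γ.FiniteIndex] (τ : ℍ) : ℝ≥0∞ :=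
  letI := Fintype.ofFinite (SL(2, ℤ) ⧸ Γ)
  ∑ q : SL(2, ℤ) ⧸ Γ, fdWeight ((mapGL ℝ q.out : GL (Fin 2) ℝ) • τ)

theorem le_subWeight (Γ : Subgroup SL(2, ℤ)) [Γ.FiniteIndex] (q : SL(2, ℤ) ⧸ Γ) (τ : ℍ) :
    fdWeight ((mapGL ℝ q.out : GL (Fin 2) ℝ) • τ) ≤ subWeight Γ τ := by
  letI := Fintype.ofFinite (SL(2, ℤ) ⧸ Γ)
  exact Finset.single_le_sum (f := fun q : SL(2, ℤ) ⧸ Γ =>
    fdWeight ((mapGL ℝ q.out : GL (Fin 2) ℝ) • τ)) (fun _ _ => zero_le') (Finset.mem_univ q)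

theorem fdWeight_pos_of_mem {τ : ℍ} (hτ : τ ∈ 𝒟) : 0 < fdWeight τ := by
  rw [fdWeight, Set.indicator_of_mem hτ]
  exact ENNReal.div_pos one_ne_zero (fdMult_ne_top τ)

theorem isWeight_subWeight (Γ : Subgroup SL(2, ℤ)) [Γ.FiniteIndex] :
    IsWeight (volume : Measure ℍ) (phi Γ) (subWeight Γ) := by
  let _ := Fintype.ofFinite (SL(2, ℤ) ⧸ Γ)
  exact isWeight_fdWeight.of_reps (fun q : SL(2, ℤ) ⧸ Γ => (mapGL ℝ q.out : GL (Fin 2) ℝ))
    (cosetProdEquiv Γ) (fun q γ => by rw [cosetProdEquiv_apply, map_mul, phi_apply])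

end Fermat.Agent.Lib.Petersson
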