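/-
The Petersson scalar product on `S_k(Γ₀(N))`, defined with the weight of `Γ₀(N)`:
`pet N k f g = ∫ conj (f τ) · g τ · (im τ)^k · W_{Γ₀(N)}(τ) dμ(τ)`.
It is additive in both variables, Hermitian and positive definite.
-/
import Mathlib
import Fermat.Agent.Lib.Petersson.FdWeight
import Fermat.Prelude.Def_CuspForm_HeckeAlgebra

set_option autoImplicit false

namespace Fermat.Agent.Lib.Petersson

open MeasureTheory UpperHalfPlane Matrix.SpecialLinearGroup CongruenceSubgroup
open scoped ENNReal MatrixGroups Modular ModularForm ComplexConjugate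

/-- Integration of a function against the weight of a subgroup of finite index. -/
noncomputable def wInt (Γ : Subgroup SL(2, ℤ)) [Γ.FiniteIndex] (F : ℍ → ℂ) : ℂ :=
  ∫ τ, F τ * ((subWeight Γ τ).toReal : ℂ)

variable {N : ℕ} [NeZero N] {k : ℤ}

/-- The Petersson product on cusp forms of level `Γ₀(N)`. -/
noncomputable def pet (N : ℕ) [NeZero N] (k : ℤ) (f g : CuspForm (Gamma0 N) k) : ℂ :=
  wInt (Gamma0 N) (petersson k f g)

theorem petersson_cusp_bdd (f g : CuspForm (Gamma0 N) k) : ∃ C, ∀ τ, ‖petersson k f g τ‖ ≤ C :=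
  CuspFormClass.petersson_bounded_left k _ f g

omit [NeZero N] in
theorem petersson_cusp_aesm (f g : CuspForm (Gamma0 N) k) :
    AEStronglyMeasurable (petersson k f g) (volume : Measure ℍ) :=
  (petersson_continuous k (ModularFormClass.continuous f)
    (ModularFormClass.continuous g)).aestronglyMeasurable

theorem integrable_petersson_cusp (f g : CuspForm (Gamma0 N) k) :
    Integrable (fun τ => petersson k f g τ * ((subWeight (Gamma0 N) τ).toReal : ℂ)) := by
  obtain ⟨C, hC⟩ := petersson_cusp_bdd f g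
  exact (isWeight_subWeight (Gamma0 N)).integrable_mul (petersson_cusp_aesm f g) hC

theorem petersson_add_left (k : ℤ) (φ₁ φ₂ ψ : ℍ → ℂ) (τ : ℍ) :
    petersson k (φ₁ + φ₂) ψ τ = petersson k φ₁ ψ τ + petersson k φ₂ ψ τ := by
  simp only [petersson, Pi.add_apply, map_add]
  ring

theorem petersson_add_right (k : ℤ) (φ ψ₁ ψ₂ : ℍ → ℂ) (τ : ℍ) :
    petersson k φ (ψ₁ + ψ₂) τ = petersson k φ ψ₁ τ + petersson k φ ψ₂ τ := by
  simp only [petersson, Pi.add_apply]
  ring

theorem pet_add_left (f₁ f₂ g : CuspForm (Gamma0 N) k) :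
    pet N k (f₁ + f₂) g = pet N k f₁ g + pet N k f₂ g := by
  unfold pet wInt
  rw [← integral_add (integrable_petersson_cusp f₁ g) (integrable_petersson_cusp f₂ g)]
  refine integral_congr_ae (ae_of_all _ fun τ => ?_)
  simp only [FunLike.coe_add, petersson_add_left]
  ring

theorem pet_add_right (f g₁ g₂ : CuspForm (Gamma0 N) k) :
    pet N k f (g₁ + g₂) = pet N k f g₁ + pet N k f g₂ := by
  unfold pet wInt
  rw [← integral_add (integrable_petersson_cusp f g₁) (integrable_petersson_cusp f g₂)]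
  refine integral_congr_ae (ae_of_all _ fun τ => ?_)
  simp only [FunLike.coe_add, petersson_add_right]
  ring

theorem pet_conj (f g : CuspForm (Gamma0 N) k) : conj (pet N k f g) = pet N k g f := by
  unfold pet wInt
  rw [← integral_conj]
  refine integral_congr_ae (ae_of_all _ fun τ => ?_)
  simp only [map_mul, Complex.conj_ofReal, ← petersson_symm]

/-- A cusp form vanishes on every translate of the open fundamental domain on which the
Petersson integrand vanishes almost everywhere. -/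
theorem pet_self_eq_zero (f : CuspForm (Gamma0 N) k) (h : pet N k f f = 0) : f = 0 := by
  have hW := isWeight_subWeight (Gamma0 N)
  set G : ℍ → ℝ := fun τ => ‖f τ‖ ^ 2 * τ.im ^ k * (subWeight (Gamma0 N) τ).toReal with hG
  have hGc : ∀ τ, petersson k f f τ * ((subWeight (Gamma0 N) τ).toReal : ℂ) = ((G τ : ℝ) : ℂ) := by
    intro τ
    simp only [petersson, hG, Complex.conj_mul', Complex.ofReal_mul, Complex.ofReal_pow,
      Complex.ofReal_zpow]
  have hGnn : 0 ≤ G := fun τ => by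
    have := τ.im_pos
    positivity
  have hGint : Integrable G := by
    have h1 : Integrable (fun τ => ((G τ : ℝ) : ℂ)) :=
      (integrable_petersson_cusp f f).congr (ae_of_all _ hGc)
    simpa using h1.re
  have h0 : ∫ τ, G τ = 0 := by
    have h1 : ((∫ τ, G τ : ℝ) : ℂ) = 0 := by
      have e := integral_ofReal (μ := (volume : Measure ℍ)) (𝕜 := ℂ) (f := G)
      rw [← h, pet, wInt]
      exact e.symm.trans (integral_congr_ae (ae_of_all _ fun τ => (hGc τ).symm))
    exact_mod_cast h1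
  have hae : G =ᵐ[volume] 0 := (integral_eq_zero_iff_of_nonneg hGnn hGint).1 h0
  have hnull : volume {τ | G τ ≠ 0} = 0 := by
    simpa [Filter.EventuallyEq, ae_iff] using hae
  have hfc : Continuous f := ModularFormClass.continuous f
  -- Step A
  have stepA : ∀ (q : SL(2, ℤ) ⧸ Gamma0 N) (τ : ℍ),
      (mapGL ℝ q.out : GL (Fin 2) ℝ) • τ ∈ 𝒟ᵒ → f τ = 0 := by
    intro q τ₀ hτ₀
    by_contra hne
    have hopen : IsOpen ({τ : ℍ | (mapGL ℝ q.out : GL (Fin 2) ℝ) • τ ∈ 𝒟ᵒ} ∩ {τ | f τ ≠ 0}) :=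
      (ModularGroup.isOpen_fdo.preimage (continuous_const_smul _)).inter
        (isOpen_ne_fun hfc continuous_const)
    have hpos := volume_pos_of_isOpen hopen ⟨τ₀, hτ₀, hne⟩
    refine hpos.ne' (measure_mono_null ?_ hnull)
    rintro τ ⟨hτ1, hτ2⟩
    have hw1 : 0 < subWeight (Gamma0 N) τ :=
      lt_of_lt_of_le (fdWeight_pos_of_mem (ModularGroup.fdo_subset_fd hτ1))
        (le_subWeight (Gamma0 N) q τ)
    have hw2 : subWeight (Gamma0 N) τ ≠ ⊤ := hW.apply_ne_top τ
    have hw3 : 0 < (subWeight (Gamma0 N) τ).toReal := ENNReal.toReal_pos hw1.ne' hw2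
    have hf0 : 0 < ‖f τ‖ := norm_pos_iff.2 hτ2
    have := τ.im_pos
    show G τ ≠ 0
    simp only [hG]
    positivity
  -- Step B
  have stepB : ∀ (g : SL(2, ℤ)) (τ : ℍ), g • τ ∈ 𝒟ᵒ → f τ = 0 := by
    intro g τ hτ
    obtain ⟨γ, hγ⟩ := QuotientGroup.mk_out_eq_mul (Gamma0 N) g
    have h1 : f ((γ : SL(2, ℤ))⁻¹ • τ) = 0 := by
      refine stepA (QuotientGroup.mk g) _ ?_
      show (Quotient.out (QuotientGroup.mk g : SL(2, ℤ) ⧸ Gamma0 N)) • ((γ : SL(2, ℤ))⁻¹ • τ) ∈ 𝒟ᵒ
      rw [hγ, ← mul_smul, mul_inv_cancel_right]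
      exact hτ
    have h2 : (⇑f ∣[k] (γ : SL(2, ℤ))⁻¹) = ⇑f :=
      SlashInvariantFormClass.slash_action_eq f _
        (Subgroup.mem_map_of_mem _ (inv_mem γ.2))
    have h3 := congrFun h2 τ
    rw [ModularForm.SL_slash_apply, h1, zero_mul] at h3
    exact h3.symm
  -- Step C
  refine DFunLike.ext _ _ fun τ => ?_
  obtain ⟨g, hg⟩ := ModularGroup.exists_smul_mem_fd τ
  have hZ : IsClosed {τ' : ℍ | f τ' = 0} := isClosed_eq hfc continuous_const
  have hcl : τ ∈ closure {τ' : ℍ | g • τ' ∈ 𝒟ᵒ} := by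
    have := (Homeomorph.smul (mapGL ℝ g : GL (Fin 2) ℝ)).preimage_closure (𝒟ᵒ : Set ℍ)
    have h4 : τ ∈ (Homeomorph.smul (mapGL ℝ g : GL (Fin 2) ℝ)) ⁻¹' closure (𝒟ᵒ : Set ℍ) := by
      rw [← ModularGroup.fd_eq_closure_fdo]
      exact hg
    rw [this] at h4
    exact h4
  exact closure_minimal (fun τ' hτ' => stepB g τ' hτ') hZ hcl

end Fermat.Agent.Lib.Petersson
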