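/-
Integration over a quotient `H \ X` without fundamental domains: WEIGHTS.

`G` is a group acting on a measure space `X` preserving the measure, `φ : H → G` a family of
elements (in the applications a group homomorphism from a countable group).  A *weight* for `φ`
is a measurable function `W : X → ℝ≥0∞` of finite integral with `∑' h, W (φ h • x) = 1` for
EVERY `x`.  For an `H`-invariant bounded function `F` the number `∫ F · W` does not depend on the
weight (`IsWeight.integral_eq`, the unfolding trick); it plays the role of `∫_{H \ X} F`.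
-/
import Mathlib

set_option autoImplicit false

namespace Fermat.Agent.Lib.Petersson

open MeasureTheory
open scoped ENNReal

variable {X : Type*} [MeasurableSpace X] {μ : Measure X}
variable {G : Type*} [Group G] [MulAction G X]

/-- `W` is a weight for the family `φ : H → G` of transformations of `X`. -/
structure IsWeight (μ : Measure X) {H : Type*} (φ : H → G) (W : X → ℝ≥0∞) : Prop where
  measurable : Measurable W
  tsum_eq_one : ∀ x, ∑' h : H, W (φ h • x) = 1
  lintegral_ne_top : ∫⁻ x, W x ∂μ ≠ ⊤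

/-- A bounded measurable function times a function of finite integral is integrable. -/
theorem integrable_mul_toReal {W : X → ℝ≥0∞} (hWm : Measurable W) (hWfin : ∫⁻ x, W x ∂μ ≠ ⊤)
    {F : X → ℂ} (hFm : AEStronglyMeasurable F μ) {C : ℝ} (hFb : ∀ x, ‖F x‖ ≤ C) :
    Integrable (fun x => F x * ((W x).toReal : ℂ)) μ := by
  have h0 : Integrable (fun x => (W x).toReal) μ :=
    integrable_toReal_of_lintegral_ne_top hWm.aemeasurable hWfin
  have h1 : Integrable (fun x => C * (W x).toReal) μ := h0.const_mul C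
  refine h1.mono' (hFm.mul (Complex.continuous_ofReal.measurable.comp_aemeasurable
    hWm.ennreal_toReal.aemeasurable).aestronglyMeasurable) (ae_of_all _ fun x => ?_)
  rw [norm_mul, Complex.norm_real, Real.norm_of_nonneg ENNReal.toReal_nonneg]
  exact mul_le_mul_of_nonneg_right (hFb x) ENNReal.toReal_nonneg

namespace IsWeight

variable {H : Type*} {φ : H → G} {W : X → ℝ≥0∞}

theorem apply_le_one' [Nonempty H] (hW : IsWeight μ φ W) (x : X) : W x ≤ 1 := by
  obtain ⟨h⟩ := ‹Nonempty H›
  have := hW.tsum_eq_one ((φ h)⁻¹ • x) ▸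
    ENNReal.le_tsum (f := fun h' : H => W (φ h' • ((φ h)⁻¹ • x))) h
  simpa [smul_inv_smul] using this

theorem apply_ne_top [Nonempty H] (hW : IsWeight μ φ W) (x : X) : W x ≠ ⊤ :=
  ne_top_of_le_ne_top ENNReal.one_ne_top (hW.apply_le_one' x)

theorem apply_le_one [One H] (hW : IsWeight μ φ W) (hφ1 : φ 1 = 1) (x : X) : W x ≤ 1 := by
  have h := ENNReal.le_tsum (f := fun h : H => W (φ h • x)) 1
  simpa [hφ1, hW.tsum_eq_one x] using h

theorem apply_smul_le_one (hW : IsWeight μ φ W) (h : H) (x : X) : W (φ h • x) ≤ 1 := by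
  have := ENNReal.le_tsum (f := fun h : H => W (φ h • x)) h
  simpa [hW.tsum_eq_one x] using this

theorem apply_smul_ne_top (hW : IsWeight μ φ W) (h : H) (x : X) : W (φ h • x) ≠ ⊤ :=
  ne_top_of_le_ne_top ENNReal.one_ne_top (hW.apply_smul_le_one h x)

theorem integrable_toReal (hW : IsWeight μ φ W) : Integrable (fun x => (W x).toReal) μ :=
  integrable_toReal_of_lintegral_ne_top hW.measurable.aemeasurable hW.lintegral_ne_top

theorem integrable_mul (hW : IsWeight μ φ W) {F : X → ℂ} (hFm : AEStronglyMeasurable F μ)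
    {C : ℝ} (hFb : ∀ x, ‖F x‖ ≤ C) :
    Integrable (fun x => F x * ((W x).toReal : ℂ)) μ :=
  integrable_mul_toReal hW.measurable hW.lintegral_ne_top hFm hFb

section Unfold

variable [MeasurableConstSMul G X]

/-- Half of the unfolding computation: insert the partition of unity given by `W₂`. -/
theorem integral_eq_tsum [Countable H] (φ : H → G) {W₁ W₂ : X → ℝ≥0∞} (h₁ : IsWeight μ φ W₁)
    (h₂ : IsWeight μ φ W₂) {F : X → ℂ} (hFm : AEStronglyMeasurable F μ) {C : ℝ}
    (hFb : ∀ x, ‖F x‖ ≤ C) :
    ∫ x, F x * ((W₁ x).toReal : ℂ) ∂μ =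
      ∑' h : H, ∫ x, F x * ((W₁ x).toReal : ℂ) * ((W₂ (φ h • x)).toReal : ℂ) ∂μ := by
  have hsum : ∀ x, ∑' h : H, ((W₂ (φ h • x)).toReal : ℂ) = 1 := by
    intro x
    rw [← Complex.ofReal_tsum, ← ENNReal.tsum_toReal_eq (fun h => h₂.apply_smul_ne_top h x),
      h₂.tsum_eq_one x]
    simp
  have hW₁m : AEStronglyMeasurable (fun x => ((W₁ x).toReal : ℂ)) μ :=
    (Complex.continuous_ofReal.measurable.comp h₁.measurable.ennreal_toReal).aestronglyMeasurable
  have hW₂m : ∀ h : H, AEStronglyMeasurable (fun x => ((W₂ (φ h • x)).toReal : ℂ)) μ := fun h =>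
    (Complex.continuous_ofReal.measurable.comp
      (h₂.measurable.comp (measurable_const_smul (φ h))).ennreal_toReal).aestronglyMeasurable
  rw [← integral_tsum]
  · refine integral_congr_ae (ae_of_all _ fun x => ?_)
    simp only
    rw [tsum_mul_left, hsum x, mul_one]
  · exact fun h => (hFm.mul hW₁m).mul (hW₂m h)
  · have hb : ∀ (h : H) (x : X),
        ‖F x * ((W₁ x).toReal : ℂ) * ((W₂ (φ h • x)).toReal : ℂ)‖ₑ ≤
          ENNReal.ofReal C * (W₁ x * W₂ (φ h • x)) := by
      intro h x
      rw [enorm_mul, enorm_mul, mul_assoc]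
      gcongr
      · rw [← ofReal_norm]; exact ENNReal.ofReal_le_ofReal (hFb x)
      · rw [← ofReal_norm, Complex.norm_real, Real.norm_of_nonneg ENNReal.toReal_nonneg]
        exact ENNReal.ofReal_toReal_le
      · rw [← ofReal_norm, Complex.norm_real, Real.norm_of_nonneg ENNReal.toReal_nonneg]
        exact ENNReal.ofReal_toReal_le
    refine ne_top_of_le_ne_top ?_ (ENNReal.tsum_le_tsum fun h => lintegral_mono (hb h))
    rw [← lintegral_tsum]
    · have : ∀ x, ∑' h : H, ENNReal.ofReal C * (W₁ x * W₂ (φ h • x)) =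
          ENNReal.ofReal C * W₁ x := by
        intro x
        rw [ENNReal.tsum_mul_left, ENNReal.tsum_mul_left, h₂.tsum_eq_one x, mul_one]
      simp_rw [this]
      rw [lintegral_const_mul _ h₁.measurable]
      exact ENNReal.mul_ne_top ENNReal.ofReal_ne_top h₁.lintegral_ne_top
    · exact fun h => ((h₁.measurable.mul
        (h₂.measurable.comp (measurable_const_smul (φ h)))).const_mul _).aemeasurable

/-- **Unfolding.**  The integral of an invariant bounded function against a weight does not
depend on the weight. -/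
theorem integral_eq [SMulInvariantMeasure G X μ] [Group H] [Countable H] (φ : H →* G) {W₁ W₂ : X → ℝ≥0∞}
    (h₁ : IsWeight μ (φ : H → G) W₁) (h₂ : IsWeight μ (φ : H → G) W₂)
    {F : X → ℂ} (hFm : AEStronglyMeasurable F μ) {C : ℝ} (hFb : ∀ x, ‖F x‖ ≤ C)
    (hFinv : ∀ (h : H) (x : X), F (φ h • x) = F x) :
    ∫ x, F x * ((W₁ x).toReal : ℂ) ∂μ = ∫ x, F x * ((W₂ x).toReal : ℂ) ∂μ := by
  have e1 := integral_eq_tsum (φ : H → G) h₁ h₂ hFm hFb
  have e2 := integral_eq_tsum (φ : H → G) h₂ h₁ hFm hFb
  have e3 : ∑' h : H, ∫ x, F x * ((W₂ x).toReal : ℂ) * ((W₁ (φ h • x)).toReal : ℂ) ∂μ =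
      ∑' h : H, ∫ x, F x * ((W₂ x).toReal : ℂ) * ((W₁ (φ h⁻¹ • x)).toReal : ℂ) ∂μ :=
    ((Equiv.inv H).tsum_eq
      (fun h => ∫ x, F x * ((W₂ x).toReal : ℂ) * ((W₁ (φ h • x)).toReal : ℂ) ∂μ)).symm
  rw [e1, e2, e3]
  refine tsum_congr fun h => ?_
  have := integral_smul_eq_self (μ := μ)
    (fun x => F x * ((W₂ x).toReal : ℂ) * ((W₁ (φ h⁻¹ • x)).toReal : ℂ)) (g := φ h)
  rw [← this]
  refine integral_congr_ae (ae_of_all _ fun x => ?_)
  simp only
  rw [hFinv, map_inv, inv_smul_smul]
  ring

end Unfold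

/-- Passing to a "subgroup of finite index": if `H = ⊔ᵢ rᵢ K` then `∑ᵢ W ∘ rᵢ` is a weight for `K`. -/
theorem of_reps [MeasurableConstSMul G X] [SMulInvariantMeasure G X μ] {K ι : Type*} [Fintype ι]
    {ψ : K → G} (hW : IsWeight μ φ W) (r : ι → G) (e : ι × K ≃ H)
    (he : ∀ i k, φ (e (i, k)) = r i * ψ k) :
    IsWeight μ ψ (fun x => ∑ i, W (r i • x)) where
  measurable := Finset.measurable_sum _ fun i _ => hW.measurable.comp (measurable_const_smul (r i))
  tsum_eq_one x := by
    calc ∑' k : K, ∑ i, W (r i • ψ k • x)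
        = ∑' k : K, ∑' i : ι, W (φ (e (i, k)) • x) := by
          refine tsum_congr fun k => ?_
          rw [tsum_fintype]
          refine Finset.sum_congr rfl fun i _ => ?_
          rw [he, mul_smul]
      _ = ∑' i : ι, ∑' k : K, W (φ (e (i, k)) • x) := ENNReal.tsum_comm
      _ = ∑' p : ι × K, W (φ (e p) • x) :=
          (ENNReal.tsum_prod (f := fun i k => W (φ (e (i, k)) • x))).symm
      _ = ∑' h : H, W (φ h • x) := e.tsum_eq (fun h => W (φ h • x))
      _ = 1 := hW.tsum_eq_one x
  lintegral_ne_top := by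
    rw [lintegral_finsetSum (f := fun i x => W (r i • x)) Finset.univ fun i _ =>
      hW.measurable.comp (measurable_const_smul (r i))]
    refine (ENNReal.sum_lt_top.2 fun i _ => ?_).ne
    rw [(measurePreserving_smul (r i) μ).lintegral_comp hW.measurable]
    exact hW.lintegral_ne_top.lt_top

/-- Transport of a weight by an element normalising the family. -/
theorem comp_of_normalizes [MeasurableConstSMul G X] [SMulInvariantMeasure G X μ]
    (hW : IsWeight μ φ W) (hφ : Function.Injective φ) (w : G)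
    (h1 : ∀ h, ∃ h', w * φ h = φ h' * w) (h2 : ∀ h', ∃ h, w * φ h = φ h' * w) :
    IsWeight μ φ (fun x => W (w • x)) where
  measurable := hW.measurable.comp (measurable_const_smul w)
  tsum_eq_one x := by
    choose c hc using h1
    have hcb : Function.Bijective c := by
      refine ⟨fun a b hab => hφ ?_, fun h' => ?_⟩
      · have := hc a
        rw [hab, ← hc b] at this
        exact mul_left_cancel this
      · obtain ⟨h, hh⟩ := h2 h'
        refine ⟨h, hφ ?_⟩
        have := hc h
        rw [hh] at this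
        exact (mul_right_cancel this).symm
    rw [← hW.tsum_eq_one (w • x),
      ← (Equiv.ofBijective c hcb).tsum_eq (fun h' => W (φ h' • w • x))]
    refine tsum_congr fun h => ?_
    show W (w • φ h • x) = W (φ (c h) • w • x)
    rw [← mul_smul, hc, mul_smul]
  lintegral_ne_top := by
    rw [(measurePreserving_smul w μ).lintegral_comp hW.measurable]
    exact hW.lintegral_ne_top

/-- The trace identity: moving translations from the function to the weight. -/
theorem integral_sum_comp [MeasurableConstSMul G X] [SMulInvariantMeasure G X μ] [Nonempty H]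
    {ι : Type*} [Fintype ι] (hW : IsWeight μ φ W) (r : ι → G) {F : X → ℂ}
    (hFm : AEStronglyMeasurable F μ) {C : ℝ} (hFb : ∀ x, ‖F x‖ ≤ C) :
    ∫ x, (∑ i, F ((r i)⁻¹ • x)) * ((W x).toReal : ℂ) ∂μ =
      ∫ x, F x * (((∑ i, W (r i • x)).toReal : ℝ) : ℂ) ∂μ := by
  have hWr : ∀ i, Measurable fun x => W (r i • x) := fun i =>
    hW.measurable.comp (measurable_const_smul (r i))
  have hWrfin : ∀ i, ∫⁻ x, W (r i • x) ∂μ ≠ ⊤ := fun i => by
    rw [(measurePreserving_smul (r i) μ).lintegral_comp hW.measurable]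
    exact hW.lintegral_ne_top
  have hFr : ∀ i, AEStronglyMeasurable (fun x => F ((r i)⁻¹ • x)) μ := fun i =>
    hFm.comp_measurePreserving (measurePreserving_smul (r i)⁻¹ μ)
  have e1 : ∀ x, (∑ i, F ((r i)⁻¹ • x)) * ((W x).toReal : ℂ) =
      ∑ i, F ((r i)⁻¹ • x) * ((W x).toReal : ℂ) := fun x => Finset.sum_mul _ _ _
  have e2 : ∀ x, F x * (((∑ i, W (r i • x)).toReal : ℝ) : ℂ) =
      ∑ i, F x * ((W (r i • x)).toReal : ℂ) := fun x => by
    rw [ENNReal.toReal_sum fun i _ => hW.apply_ne_top _, Complex.ofReal_sum, Finset.mul_sum]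
  simp_rw [e1, e2]
  rw [integral_finsetSum _ fun i _ => hW.integrable_mul (hFr i) (fun x => hFb _),
    integral_finsetSum _ fun i _ => integrable_mul_toReal (hWr i) (hWrfin i) hFm hFb]
  refine Finset.sum_congr rfl fun i _ => ?_
  have := integral_smul_eq_self (μ := μ) (fun x => F x * ((W (r i • x)).toReal : ℂ))
    (g := (r i)⁻¹)
  rw [← this]
  refine integral_congr_ae (ae_of_all _ fun x => ?_)
  simp only
  rw [smul_inv_smul]

end IsWeight

end Fermat.Agent.Lib.Petersson
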